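/-
GATE-P / P-INT (helper39): **the frozen statement S56 (Taylor–Wiles primes) from two NAMED GATES.**

The algebra end is a theorem ([P-TAN]: helper6 `GP/Alg/TangentSurj`, helper11 `GP/Tan/UnivInj`):
a deformation ring `DQ.R` whose tangent vectors `DQ.R →ₐ[𝒪] k[ε]` inject into a set with at most
`|k|^r` elements is a quotient of `𝒪⟦X₁ … X_r⟧`, and the tangent vectors inject into any set of
invariants separating inequivalent first-order deformations of type `𝒟`.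

What is left is number theory, packaged here as ONE predicate per deformation condition:

* `SelmerGate 𝒪 ρbar 𝒟 r` : there are a `k`-vector space `W` of dimension `≤ r` (the Selmer group
  `H¹_𝓛(G_ℚ, ad⁰ ρbar)`) and a class map `c` on the first-order deformations (`k[ε]`-lifts) such that
  (i) two lifts of type `𝒟` with the same class are equivalent, (ii) a lift of type `𝒟` with class
  `0` is constant (`≅` its own base change along `θ : k[ε] → k → k[ε]`).
* `TWGate 𝒪 p ρbar S Smin Cp` : `∃ r, ∀ n, ∃` a Taylor–Wiles set `qv : Fin r → ℕ` (the FROZEN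
  clauses verbatim) with `SelmerGate … (cond56 𝒪 p Smin Cp (image qv)) r`.

* `exists_surjective_of_selmerGate` : `SelmerGate` + stability of `𝒟` under surjective base change
  to `k[ε]` ⟹ the last line of both conjuncts of the frozen S56;
* **`s56_of_gates`** : the frozen S56 from `TWGate` at `Cp := IsStrictOrdinaryAt p` and at
  `Cp := IsFlatAt p` and the two base-change stabilities.
-/
import Fermat.Agent.GP.Alg.TangentSurj
import Fermat.Agent.GP.Tan.UnivInj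
import Fermat.Prelude.Def_GaloisRep_DeformationRingData
import Fermat.Prelude.Def_GaloisRep_LocalConditions
import Fermat.Prelude.Def_GaloisRep_StrictOrdinary
import Fermat.Prelude.Def_GaloisRep_Flat
import Fermat.Prelude.Def_GaloisRep_Residual

set_option autoImplicit false
set_option linter.unusedSectionVars false
set_option linter.style.haveILetI false

noncomputable section

namespace Fermat.Agent.GP.Top

open IsLocalRing Polynomial Function
open Fermat.Agent.GP.Tan.UnivInj Fermat.Agent.S53_helper35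

section Gate

variable (𝒪 : Type) [CommRing 𝒪] [IsDomain 𝒪] [IsDiscreteValuationRing 𝒪]
  [IsAdicComplete (maximalIdeal 𝒪) 𝒪]

/-- `θ : k[ε] → k → k[ε]`, the `𝒪`-algebra endomorphism killing `ε`. -/
def theta : DualNumber (ResidueField 𝒪) →ₐ[𝒪] DualNumber (ResidueField 𝒪) :=
  (TrivSqZeroExt.inlAlgHom 𝒪 (ResidueField 𝒪) (ResidueField 𝒪)).comp
    (TrivSqZeroExt.fstHom 𝒪 (ResidueField 𝒪) (ResidueField 𝒪))

theorem theta_apply (x : DualNumber (ResidueField 𝒪)) :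
    theta 𝒪 x = TrivSqZeroExt.inl x.fst := rfl

theorem isLocalHom_theta :
    IsLocalHom ((theta 𝒪 : DualNumber (ResidueField 𝒪) →ₐ[𝒪] DualNumber (ResidueField 𝒪)) :
      DualNumber (ResidueField 𝒪) →+* DualNumber (ResidueField 𝒪)) :=
  isLocalHom_of_residue_cover residue_cover_dualNumber _

variable (ρbar : ResidualGaloisRep (ResidueField 𝒪))

/-- a `k[ε]`-lift of `ρbar`, in the shape of `DeformationRingData.universal`. -/
def IsLift (ρ : GaloisRepAdic (DualNumber (ResidueField 𝒪))) : Prop :=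
  ρ.residual.IsEquiv (ρbar.baseChangeAlong
    (ResidueField.map (algebraMap 𝒪 (DualNumber (ResidueField 𝒪)))))

/-- **the number-theoretic gate**: the first-order deformations of type `𝒟` are classified by a
`k`-vector space of dimension `≤ r`. -/
def SelmerGate
    (𝒟 : ∀ ⦃A : Type⦄ [CommRing A] [IsLocalRing A] [Algebra 𝒪 A], GaloisRepAdic A → Prop)
    (r : ℕ) : Prop :=
  ∃ (W : Type) (_ : AddCommGroup W) (_ : Module (ResidueField 𝒪) W)
    (_ : Module.Finite (ResidueField 𝒪) W),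
    Module.finrank (ResidueField 𝒪) W ≤ r ∧
    ∃ c : GaloisRepAdic (DualNumber (ResidueField 𝒪)) → W,
      (∀ ρ₁ ρ₂ : GaloisRepAdic (DualNumber (ResidueField 𝒪)),
        IsLift 𝒪 ρbar ρ₁ → IsLift 𝒪 ρbar ρ₂ → 𝒟 ρ₁ → 𝒟 ρ₂ → c ρ₁ = c ρ₂ → ρ₁.IsEquiv ρ₂) ∧
      (∀ ρ₁ : GaloisRepAdic (DualNumber (ResidueField 𝒪)),
        IsLift 𝒪 ρbar ρ₁ → 𝒟 ρ₁ → c ρ₁ = 0 →
          ρ₁.IsEquiv (ρ₁.baseChangeAlong
            ((theta 𝒪 : DualNumber (ResidueField 𝒪) →ₐ[𝒪] DualNumber (ResidueField 𝒪)) :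
              DualNumber (ResidueField 𝒪) →+* DualNumber (ResidueField 𝒪))
            (isLocalHom_theta 𝒪)))

end Gate

/-! ### composition of base changes -/

section Comp

variable {A : Type} [CommRing A] [IsLocalRing A] {B : Type} [CommRing B] [IsLocalRing B]
  {C : Type} [CommRing C] [IsLocalRing C]

theorem isLocalHom_comp' (φ : A →+* B) (hφ : IsLocalHom φ) (θ : B →+* C) (hθ : IsLocalHom θ) :
    IsLocalHom (θ.comp φ) :=
  ⟨fun a ha => hφ.map_nonunit a (hθ.map_nonunit (φ a) ha)⟩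

/-- **base change is transitive** (matrix dictionary of helper35). -/
theorem baseChangeAlong_comp_isEquiv (ρ : GaloisRepAdic A) (φ : A →+* B) (hφ : IsLocalHom φ)
    (θ : B →+* C) (hθ : IsLocalHom θ) :
    ((ρ.baseChangeAlong φ hφ).baseChangeAlong θ hθ).IsEquiv
      (ρ.baseChangeAlong (θ.comp φ) (isLocalHom_comp' φ hφ θ hθ)) := by
  set b := stdBasis ρ
  have hr : MatCont (toMat ρ b) := matCont_toMat ρ b
  have hr1 : MatCont (mapMat φ (toMat ρ b)) := matCont_mapMat φ hφ hr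
  obtain ⟨e1⟩ := baseChangeAlong_isEquiv_ofMat φ hφ ρ b
  have e2 := GaloisRepAdic.Equiv.baseChangeAlong θ hθ e1
  obtain ⟨e3⟩ := baseChangeAlong_isEquiv_ofMat θ hθ (ofMat (mapMat φ (toMat ρ b)) hr1)
    (ofMatBasis _ hr1)
  obtain ⟨e4⟩ := baseChangeAlong_isEquiv_ofMat (θ.comp φ) (isLocalHom_comp' φ hφ θ hθ) ρ b
  have hm : mapMat θ (toMat (ofMat (mapMat φ (toMat ρ b)) hr1) (ofMatBasis _ hr1)) =
      mapMat (θ.comp φ) (toMat ρ b) := by
    rw [toMat_ofMat]
    refine MonoidHom.ext fun σ => ?_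
    rw [mapMat_apply, mapMat_apply, mapMat_apply, Matrix.map_map]
    rfl
  obtain ⟨e5⟩ := isEquiv_ofMat_of_eq
    (matCont_mapMat θ hθ (matCont_toMat (ofMat (mapMat φ (toMat ρ b)) hr1) (ofMatBasis _ hr1)))
    (matCont_mapMat (θ.comp φ) (isLocalHom_comp' φ hφ θ hθ) hr) hm
  exact ⟨((e2.trans e3).trans e5).trans e4.symm⟩

end Comp

/-! ### the last line of the frozen conjuncts from `SelmerGate` -/

section Surj

variable {𝒪 : Type} [CommRing 𝒪] [IsDomain 𝒪] [IsDiscreteValuationRing 𝒪]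
  [IsAdicComplete (maximalIdeal 𝒪) 𝒪] [Finite (ResidueField 𝒪)]
  {ρbar : ResidualGaloisRep (ResidueField 𝒪)}
  {𝒟 : ∀ ⦃A : Type⦄ [CommRing A] [IsLocalRing A] [Algebra 𝒪 A], GaloisRepAdic A → Prop}

/-- `θ ∘ φ` is not surjective. -/
theorem theta_comp_not_surjective {R : Type} [CommRing R] [Algebra 𝒪 R]
    (φ : R →ₐ[𝒪] DualNumber (ResidueField 𝒪)) :
    ¬ Surjective ((theta 𝒪).comp φ) := by
  intro h
  obtain ⟨x, hx⟩ := h (TrivSqZeroExt.inr 1)
  have h1 := congrArg TrivSqZeroExt.snd hx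
  rw [AlgHom.comp_apply, theta_apply, TrivSqZeroExt.snd_inl, TrivSqZeroExt.snd_inr] at h1
  exact zero_ne_one h1

/-- **`SelmerGate` ⟹ the deformation ring is a quotient of `𝒪⟦X₁ … X_r⟧`.** -/
theorem exists_surjective_of_selmerGate
    (DQ : GaloisRep.DeformationRingData 𝒪 ρbar 𝒟)
    (h𝒟 : ∀ φ : DQ.R →ₐ[𝒪] DualNumber (ResidueField 𝒪), Surjective φ →
      𝒟 (tangentRep DQ φ))
    {r : ℕ} (hG : SelmerGate 𝒪 ρbar 𝒟 r) :
    ∃ γ : MvPowerSeries (Fin r) 𝒪 →ₐ[𝒪] DQ.R, Surjective γ := by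
  classical
  obtain ⟨W, iW1, iW2, iW3, hW, c, hc1, hc2⟩ := hG
  -- a surjective tangent vector has a non-zero class
  have hne : ∀ φ : DQ.R →ₐ[𝒪] DualNumber (ResidueField 𝒪), Surjective φ →
      c (tangentRep DQ φ) ≠ 0 := by
    intro φ hφ h0
    have he := hc2 (tangentRep DQ φ) (tangentRep_residual DQ φ) (h𝒟 φ hφ) h0
    -- `tangentRep φ ≅ tangentRep (θ ∘ φ)`
    obtain ⟨e1⟩ := he
    obtain ⟨e2⟩ := baseChangeAlong_comp_isEquiv DQ.ρ
      (φ : DQ.R →+* DualNumber (ResidueField 𝒪)) (isLocalHom_algHom_dualNumber φ)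
      ((theta 𝒪 : DualNumber (ResidueField 𝒪) →ₐ[𝒪] DualNumber (ResidueField 𝒪)) :
        DualNumber (ResidueField 𝒪) →+* DualNumber (ResidueField 𝒪)) (isLocalHom_theta 𝒪)
    have he' : (tangentRep DQ ((theta 𝒪).comp φ)).IsEquiv (tangentRep DQ φ) :=
      ⟨(e1.trans e2).symm⟩
    have := algHom_dualNumber_eq_of_isEquiv DQ ((theta 𝒪).comp φ) φ (h𝒟 φ hφ) he'
    exact theta_comp_not_surjective φ (this ▸ hφ)
  -- the invariant
  let ι : (DQ.R →ₐ[𝒪] DualNumber (ResidueField 𝒪)) → W := fun φ =>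
    if Surjective φ then c (tangentRep DQ φ) else 0
  have hι : Injective ι := by
    intro φ φ' h
    by_cases hs : Surjective φ
    · by_cases hs' : Surjective φ'
      · simp only [ι, if_pos hs, if_pos hs'] at h
        exact algHom_dualNumber_eq_of_isEquiv DQ φ φ' (h𝒟 φ' hs')
          (hc1 _ _ (tangentRep_residual DQ φ) (tangentRep_residual DQ φ') (h𝒟 φ hs) (h𝒟 φ' hs') h)
      · simp only [ι, if_pos hs, if_neg hs'] at h
        exact absurd h (hne φ hs)
    · by_cases hs' : Surjective φ'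
      · simp only [ι, if_neg hs, if_pos hs'] at h
        exact absurd h.symm (hne φ' hs')
      · exact algHom_dualNumber_eq_of_not_surjective DQ.residue_surjective φ φ' hs hs'
  exact Fermat.Agent.GP.Alg.exists_surjective_of_deformationRingData_finrank DQ hW ι hι

end Surj

/-! ### the frozen statement from the gates -/

section Top

variable (𝒪 : Type) [CommRing 𝒪] [IsDomain 𝒪] [IsDiscreteValuationRing 𝒪]
  [IsAdicComplete (maximalIdeal 𝒪) 𝒪]

/-- the deformation condition of the frozen S56: `base (Smin ∪ Q)` (`base :=`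
`GaloisRep.strictOrdinaryCondition 𝒪 p` or `GaloisRep.flatCondition 𝒪 p`) and unipotent inertia at
the primes of `Smin` other than `p`. -/
def cond56
    (base : Finset ℕ → ∀ ⦃A : Type⦄ [CommRing A] [IsLocalRing A] [Algebra 𝒪 A],
      GaloisRepAdic A → Prop)
    (p : ℕ) (Smin Q : Finset ℕ) :
    ∀ ⦃A : Type⦄ [CommRing A] [IsLocalRing A] [Algebra 𝒪 A], GaloisRepAdic A → Prop :=
  fun _A _ _ _ ρ => base (Smin ∪ Q) ρ ∧
    ∀ q ∈ Smin, q.Prime → q ≠ p → ρ.IsUnipotentOnInertiaAt q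

/-- **the Taylor–Wiles gate** for the local condition `base` at `p`: the frozen clauses on the
auxiliary primes VERBATIM + `SelmerGate` at the condition `cond56 … (image qv)`. -/
def TWGate
    (base : Finset ℕ → ∀ ⦃A : Type⦄ [CommRing A] [IsLocalRing A] [Algebra 𝒪 A],
      GaloisRepAdic A → Prop)
    (p : ℕ) (ρbar : ResidualGaloisRep (ResidueField 𝒪)) (S Smin : Finset ℕ) : Prop :=
  ∃ r : ℕ, ∀ n : ℕ, ∃ qv : Fin r → ℕ, Function.Injective qv ∧
    (∀ i, (qv i).Prime ∧ qv i ∉ S ∧ p ^ (n + 1) ∣ qv i - 1) ∧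
    (∀ i, ∀ P : ValuationSubring (AlgebraicClosure ℚ), P.LiesOverPrime (qv i) →
      ∀ φ : AlgebraicClosure ℚ ≃ₐ[ℚ] AlgebraicClosure ℚ, P.IsFrobeniusAt φ (qv i) →
        ∃ α β : ResidueField 𝒪, α ≠ β ∧
          LinearMap.charpoly (ρbar.ρ φ) = (X - C α) * (X - C β)) ∧
    SelmerGate 𝒪 ρbar (cond56 𝒪 base p Smin (Finset.univ.image qv)) r

/-- **stability of the deformation condition under surjective base change to `k[ε]`**
(helper64 `GP/Tan/BaseChangeCond`). -/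
def BCGate
    (base : Finset ℕ → ∀ ⦃A : Type⦄ [CommRing A] [IsLocalRing A] [Algebra 𝒪 A],
      GaloisRepAdic A → Prop)
    (p : ℕ) (ρbar : ResidualGaloisRep (ResidueField 𝒪)) (Smin : Finset ℕ) : Prop :=
  ∀ (Q : Finset ℕ) (DQ : GaloisRep.DeformationRingData 𝒪 ρbar (cond56 𝒪 base p Smin Q))
    (φ : DQ.R →ₐ[𝒪] DualNumber (ResidueField 𝒪)), Surjective φ →
      cond56 𝒪 base p Smin Q (tangentRep DQ φ)

variable {𝒪}

/-- one conjunct of the frozen S56 from its two gates. -/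
theorem conjunct_of_gates [Finite (ResidueField 𝒪)]
    {base : Finset ℕ → ∀ ⦃A : Type⦄ [CommRing A] [IsLocalRing A] [Algebra 𝒪 A],
      GaloisRepAdic A → Prop}
    {p : ℕ} {ρbar : ResidualGaloisRep (ResidueField 𝒪)} {S Smin : Finset ℕ}
    (hTW : TWGate 𝒪 base p ρbar S Smin) (hBC : BCGate 𝒪 base p ρbar Smin) :
    ∃ r : ℕ, ∀ n : ℕ, ∃ qv : Fin r → ℕ, Function.Injective qv ∧
      (∀ i, (qv i).Prime ∧ qv i ∉ S ∧ p ^ (n + 1) ∣ qv i - 1) ∧
      (∀ i, ∀ P : ValuationSubring (AlgebraicClosure ℚ), P.LiesOverPrime (qv i) →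
        ∀ φ : AlgebraicClosure ℚ ≃ₐ[ℚ] AlgebraicClosure ℚ, P.IsFrobeniusAt φ (qv i) →
          ∃ α β : ResidueField 𝒪, α ≠ β ∧
            LinearMap.charpoly (ρbar.ρ φ) = (X - C α) * (X - C β)) ∧
      ∀ DQ : GaloisRep.DeformationRingData 𝒪 ρbar
          (cond56 𝒪 base p Smin (Finset.univ.image qv)),
        ∃ γ : MvPowerSeries (Fin r) 𝒪 →ₐ[𝒪] DQ.R, Function.Surjective γ := by
  obtain ⟨r, hr⟩ := hTW
  refine ⟨r, fun n => ?_⟩
  obtain ⟨qv, h1, h2, h3, h4⟩ := hr n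
  exact ⟨qv, h1, h2, h3, fun DQ =>
    exists_surjective_of_selmerGate DQ (hBC (Finset.univ.image qv) DQ) h4⟩

/-- **The frozen statement S56 from the gates**: `TWGate` and `BCGate` at the strictly ordinary and
at the flat condition. -/
theorem s56_of_gates [Finite (ResidueField 𝒪)]
    (p : ℕ) (ρbar : ResidualGaloisRep (ResidueField 𝒪)) (S Smin : Finset ℕ)
    (hSO : TWGate 𝒪 (GaloisRep.strictOrdinaryCondition 𝒪 p) p ρbar S Smin)
    (hSO' : BCGate 𝒪 (GaloisRep.strictOrdinaryCondition 𝒪 p) p ρbar Smin)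
    (hFL : TWGate 𝒪 (GaloisRep.flatCondition 𝒪 p) p ρbar S Smin)
    (hFL' : BCGate 𝒪 (GaloisRep.flatCondition 𝒪 p) p ρbar Smin) :
    (∃ r : ℕ, ∀ n : ℕ, ∃ qv : Fin r → ℕ, Function.Injective qv ∧
      (∀ i, (qv i).Prime ∧ qv i ∉ S ∧ p ^ (n + 1) ∣ qv i - 1) ∧
      (∀ i, ∀ P : ValuationSubring (AlgebraicClosure ℚ), P.LiesOverPrime (qv i) →
        ∀ φ : AlgebraicClosure ℚ ≃ₐ[ℚ] AlgebraicClosure ℚ, P.IsFrobeniusAt φ (qv i) →
          ∃ α β : ResidueField 𝒪, α ≠ β ∧ LinearMap.charpoly (ρbar.ρ φ) = (X - C α) * (X - C β)) ∧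
      ∀ DQ : GaloisRep.DeformationRingData 𝒪 ρbar (fun _A _ _ _ ρ =>
          GaloisRep.strictOrdinaryCondition 𝒪 p (Smin ∪ Finset.univ.image qv) ρ ∧
            ∀ q ∈ Smin, q.Prime → q ≠ p → ρ.IsUnipotentOnInertiaAt q),
        ∃ γ : MvPowerSeries (Fin r) 𝒪 →ₐ[𝒪] DQ.R, Function.Surjective γ) ∧
    (∃ r : ℕ, ∀ n : ℕ, ∃ qv : Fin r → ℕ, Function.Injective qv ∧
      (∀ i, (qv i).Prime ∧ qv i ∉ S ∧ p ^ (n + 1) ∣ qv i - 1) ∧
      (∀ i, ∀ P : ValuationSubring (AlgebraicClosure ℚ), P.LiesOverPrime (qv i) →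
        ∀ φ : AlgebraicClosure ℚ ≃ₐ[ℚ] AlgebraicClosure ℚ, P.IsFrobeniusAt φ (qv i) →
          ∃ α β : ResidueField 𝒪, α ≠ β ∧ LinearMap.charpoly (ρbar.ρ φ) = (X - C α) * (X - C β)) ∧
      ∀ DQ : GaloisRep.DeformationRingData 𝒪 ρbar (fun _A _ _ _ ρ =>
          GaloisRep.flatCondition 𝒪 p (Smin ∪ Finset.univ.image qv) ρ ∧
            ∀ q ∈ Smin, q.Prime → q ≠ p → ρ.IsUnipotentOnInertiaAt q),
        ∃ γ : MvPowerSeries (Fin r) 𝒪 →ₐ[𝒪] DQ.R, Function.Surjective γ) :=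
  ⟨conjunct_of_gates hSO hSO', conjunct_of_gates hFL hFL'⟩

end Top

end Fermat.Agent.GP.Top
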