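/-
GATE-P / P-INT residual (3a) of helper39's contract (helper64): the two `BCGate`s of
`GP/Top/S56OfGates.lean` — stability of the frozen S56 deformation conditions under surjective
base change `DQ.R → k[ε]` — from `GP/Tan/BaseChangeCond.lean`.
-/
import Fermat.Agent.GP.Top.S56OfGates
import Fermat.Agent.GP.Tan.BaseChangeCond

set_option autoImplicit false

namespace Fermat.Agent.GP.Top

open IsLocalRing Function
open Fermat.Agent.GP.Tan Fermat.Agent.GP.Tan.UnivInj

variable {𝒪 : Type} [CommRing 𝒪] [IsDomain 𝒪] [IsDiscreteValuationRing 𝒪]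
  [IsAdicComplete (maximalIdeal 𝒪) 𝒪]

/-- **`BCGate` at the strictly ordinary condition** (no surjectivity needed). -/
theorem bcGate_SO (p : ℕ) (ρbar : ResidualGaloisRep (ResidueField 𝒪)) (Smin : Finset ℕ) :
    BCGate 𝒪 (GaloisRep.strictOrdinaryCondition 𝒪 p) p ρbar Smin :=
  fun Q DQ φ _ =>
    s56StrictCond_baseChangeAlong (𝒪 := 𝒪) p Smin (Smin ∪ Q)
      (φ : DQ.R →+* DualNumber (ResidueField 𝒪)) (isLocalHom_algHom_dualNumber φ) DQ.isOfType

/-- **`BCGate` at the flat condition.** -/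
theorem bcGate_FL (p : ℕ) (ρbar : ResidualGaloisRep (ResidueField 𝒪)) (Smin : Finset ℕ) :
    BCGate 𝒪 (GaloisRep.flatCondition 𝒪 p) p ρbar Smin :=
  fun Q DQ φ hφ =>
    s56FlatCond_baseChangeAlong_of_surjective (𝒪 := 𝒪) p Smin (Smin ∪ Q)
      (φ : DQ.R →+* DualNumber (ResidueField 𝒪)) (isLocalHom_algHom_dualNumber φ) hφ DQ.isOfType

end Fermat.Agent.GP.Top
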