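/-
GATE-P / P-INT (helper39): **cardinality form of the gates of `GP/Top/S56OfGates`.**

The number-theoretic side naturally bounds the ORDER of a Selmer group (Greenberg–Wiles is a formula
for orders; the Poitou–Tate machinery of GATE-C lives over `𝔽_p`, not over `k`).  So:

* `SelmerGateCard 𝒪 ρbar 𝒟 r` : a FINITE pointed set `(W, w₀)` with `#W ≤ |k|^r` and a class map `c`
  on the `k[ε]`-lifts: (i) two lifts of type `𝒟` with the same class are equivalent, (ii) a lift of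
  type `𝒟` with class `w₀` is constant.  (`SelmerGate.card` : the vector-space form implies it.)
* `TWGateCard`, `conjunct_of_gates_card`, **`s56_of_gates_card`** : the frozen S56 from the
  cardinality gates.
-/
import Fermat.Agent.GP.Top.S56OfGates

set_option autoImplicit false
set_option linter.unusedSectionVars false
set_option linter.style.haveILetI false

noncomputable section

namespace Fermat.Agent.GP.Top

open IsLocalRing Polynomial Function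
open Fermat.Agent.GP.Tan.UnivInj Fermat.Agent.S53_helper35

section Gate

variable (𝒪 : Type) [CommRing 𝒪] [IsDomain 𝒪] [IsDiscreteValuationRing 𝒪]
  [IsAdicComplete (maximalIdeal 𝒪) 𝒪]
  (ρbar : ResidualGaloisRep (ResidueField 𝒪))

/-- **the number-theoretic gate, cardinality form.** -/
def SelmerGateCard
    (𝒟 : ∀ ⦃A : Type⦄ [CommRing A] [IsLocalRing A] [Algebra 𝒪 A], GaloisRepAdic A → Prop)
    (r : ℕ) : Prop :=
  ∃ (W : Type) (_ : Finite W) (w₀ : W),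
    Nat.card W ≤ Nat.card (ResidueField 𝒪) ^ r ∧
    ∃ c : GaloisRepAdic (DualNumber (ResidueField 𝒪)) → W,
      (∀ ρ₁ ρ₂ : GaloisRepAdic (DualNumber (ResidueField 𝒪)),
        IsLift 𝒪 ρbar ρ₁ → IsLift 𝒪 ρbar ρ₂ → 𝒟 ρ₁ → 𝒟 ρ₂ → c ρ₁ = c ρ₂ → ρ₁.IsEquiv ρ₂) ∧
      (∀ ρ₁ : GaloisRepAdic (DualNumber (ResidueField 𝒪)),
        IsLift 𝒪 ρbar ρ₁ → 𝒟 ρ₁ → c ρ₁ = w₀ →
          ρ₁.IsEquiv (ρ₁.baseChangeAlong
            ((theta 𝒪 : DualNumber (ResidueField 𝒪) →ₐ[𝒪] DualNumber (ResidueField 𝒪)) :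
              DualNumber (ResidueField 𝒪) →+* DualNumber (ResidueField 𝒪))
            (isLocalHom_theta 𝒪)))

variable {𝒪 ρbar}

/-- the vector-space form implies the cardinality form. -/
theorem SelmerGate.card [Finite (ResidueField 𝒪)]
    {𝒟 : ∀ ⦃A : Type⦄ [CommRing A] [IsLocalRing A] [Algebra 𝒪 A], GaloisRepAdic A → Prop}
    {r : ℕ} (h : SelmerGate 𝒪 ρbar 𝒟 r) : SelmerGateCard 𝒪 ρbar 𝒟 r := by
  obtain ⟨W, iW1, iW2, iW3, hW, c, hc1, hc2⟩ := h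
  haveI : Finite W := Module.finite_of_finite (ResidueField 𝒪)
  refine ⟨W, inferInstance, 0, ?_, c, hc1, hc2⟩
  rw [Module.natCard_eq_pow_finrank (K := ResidueField 𝒪)]
  exact Nat.pow_le_pow_right Nat.card_pos hW

end Gate

section Surj

variable {𝒪 : Type} [CommRing 𝒪] [IsDomain 𝒪] [IsDiscreteValuationRing 𝒪]
  [IsAdicComplete (maximalIdeal 𝒪) 𝒪] [Finite (ResidueField 𝒪)]
  {ρbar : ResidualGaloisRep (ResidueField 𝒪)}
  {𝒟 : ∀ ⦃A : Type⦄ [CommRing A] [IsLocalRing A] [Algebra 𝒪 A], GaloisRepAdic A → Prop}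

/-- **`SelmerGateCard` ⟹ the deformation ring is a quotient of `𝒪⟦X₁ … X_r⟧`.** -/
theorem exists_surjective_of_selmerGateCard
    (DQ : GaloisRep.DeformationRingData 𝒪 ρbar 𝒟)
    (h𝒟 : ∀ φ : DQ.R →ₐ[𝒪] DualNumber (ResidueField 𝒪), Surjective φ →
      𝒟 (tangentRep DQ φ))
    {r : ℕ} (hG : SelmerGateCard 𝒪 ρbar 𝒟 r) :
    ∃ γ : MvPowerSeries (Fin r) 𝒪 →ₐ[𝒪] DQ.R, Surjective γ := by
  classical
  obtain ⟨W, iW, w₀, hW, c, hc1, hc2⟩ := hG
  have hne : ∀ φ : DQ.R →ₐ[𝒪] DualNumber (ResidueField 𝒪), Surjective φ →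
      c (tangentRep DQ φ) ≠ w₀ := by
    intro φ hφ h0
    obtain ⟨e1⟩ := hc2 (tangentRep DQ φ) (tangentRep_residual DQ φ) (h𝒟 φ hφ) h0
    obtain ⟨e2⟩ := baseChangeAlong_comp_isEquiv DQ.ρ
      (φ : DQ.R →+* DualNumber (ResidueField 𝒪)) (isLocalHom_algHom_dualNumber φ)
      ((theta 𝒪 : DualNumber (ResidueField 𝒪) →ₐ[𝒪] DualNumber (ResidueField 𝒪)) :
        DualNumber (ResidueField 𝒪) →+* DualNumber (ResidueField 𝒪)) (isLocalHom_theta 𝒪)
    have he' : (tangentRep DQ ((theta 𝒪).comp φ)).IsEquiv (tangentRep DQ φ) :=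
      ⟨(e1.trans e2).symm⟩
    have := algHom_dualNumber_eq_of_isEquiv DQ ((theta 𝒪).comp φ) φ (h𝒟 φ hφ) he'
    exact theta_comp_not_surjective φ (this ▸ hφ)
  let ι : (DQ.R →ₐ[𝒪] DualNumber (ResidueField 𝒪)) → W := fun φ =>
    if Surjective φ then c (tangentRep DQ φ) else w₀
  have hι : Injective ι := by
    intro φ φ' h
    by_cases hs : Surjective φ
    · by_cases hs' : Surjective φ'
      · simp only [ι, if_pos hs, if_pos hs'] at h
        exact algHom_dualNumber_eq_of_isEquiv DQ φ φ' (h𝒟 φ' hs')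
          (hc1 _ _ (tangentRep_residual DQ φ) (tangentRep_residual DQ φ') (h𝒟 φ hs) (h𝒟 φ' hs') h)
      · simp only [ι, if_pos hs, if_neg hs'] at h
        exact absurd h (hne φ hs)
    · by_cases hs' : Surjective φ'
      · simp only [ι, if_neg hs, if_pos hs'] at h
        exact absurd h.symm (hne φ' hs')
      · exact algHom_dualNumber_eq_of_not_surjective DQ.residue_surjective φ φ' hs hs'
  exact Fermat.Agent.GP.Alg.exists_surjective_of_deformationRingData DQ ι hι hW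

end Surj

section Top

variable (𝒪 : Type) [CommRing 𝒪] [IsDomain 𝒪] [IsDiscreteValuationRing 𝒪]
  [IsAdicComplete (maximalIdeal 𝒪) 𝒪]

/-- **the Taylor–Wiles gate, cardinality form.** -/
def TWGateCard
    (base : Finset ℕ → ∀ ⦃A : Type⦄ [CommRing A] [IsLocalRing A] [Algebra 𝒪 A],
      GaloisRepAdic A → Prop)
    (p : ℕ) (ρbar : ResidualGaloisRep (ResidueField 𝒪)) (S Smin : Finset ℕ) : Prop :=
  ∃ r : ℕ, ∀ n : ℕ, ∃ qv : Fin r → ℕ, Function.Injective qv ∧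
    (∀ i, (qv i).Prime ∧ qv i ∉ S ∧ p ^ (n + 1) ∣ qv i - 1) ∧
    (∀ i, ∀ P : ValuationSubring (AlgebraicClosure ℚ), P.LiesOverPrime (qv i) →
      ∀ φ : AlgebraicClosure ℚ ≃ₐ[ℚ] AlgebraicClosure ℚ, P.IsFrobeniusAt φ (qv i) →
        ∃ α β : ResidueField 𝒪, α ≠ β ∧
          LinearMap.charpoly (ρbar.ρ φ) = (X - C α) * (X - C β)) ∧
    SelmerGateCard 𝒪 ρbar (cond56 𝒪 base p Smin (Finset.univ.image qv)) r

variable {𝒪}

theorem TWGate.card [Finite (ResidueField 𝒪)]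
    {base : Finset ℕ → ∀ ⦃A : Type⦄ [CommRing A] [IsLocalRing A] [Algebra 𝒪 A],
      GaloisRepAdic A → Prop}
    {p : ℕ} {ρbar : ResidualGaloisRep (ResidueField 𝒪)} {S Smin : Finset ℕ}
    (h : TWGate 𝒪 base p ρbar S Smin) : TWGateCard 𝒪 base p ρbar S Smin := by
  obtain ⟨r, hr⟩ := h
  refine ⟨r, fun n => ?_⟩
  obtain ⟨qv, h1, h2, h3, h4⟩ := hr n
  exact ⟨qv, h1, h2, h3, h4.card⟩

/-- one conjunct of the frozen S56 from its two gates (cardinality form). -/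
theorem conjunct_of_gates_card [Finite (ResidueField 𝒪)]
    {base : Finset ℕ → ∀ ⦃A : Type⦄ [CommRing A] [IsLocalRing A] [Algebra 𝒪 A],
      GaloisRepAdic A → Prop}
    {p : ℕ} {ρbar : ResidualGaloisRep (ResidueField 𝒪)} {S Smin : Finset ℕ}
    (hTW : TWGateCard 𝒪 base p ρbar S Smin) (hBC : BCGate 𝒪 base p ρbar Smin) :
    ∃ r : ℕ, ∀ n : ℕ, ∃ qv : Fin r → ℕ, Function.Injective qv ∧
      (∀ i, (qv i).Prime ∧ qv i ∉ S ∧ p ^ (n + 1) ∣ qv i - 1) ∧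
      (∀ i, ∀ P : ValuationSubring (AlgebraicClosure ℚ), P.LiesOverPrime (qv i) →
        ∀ φ : AlgebraicClosure ℚ ≃ₐ[ℚ] AlgebraicClosure ℚ, P.IsFrobeniusAt φ (qv i) →
          ∃ α β : ResidueField 𝒪, α ≠ β ∧
            LinearMap.charpoly (ρbar.ρ φ) = (X - C α) * (X - C β)) ∧
      ∀ DQ : GaloisRep.DeformationRingData 𝒪 ρbar
          (cond56 𝒪 base p Smin (Finset.univ.image qv)),
        ∃ γ : MvPowerSeries (Fin r) 𝒪 →ₐ[𝒪] DQ.R, Function.Surjective γ := by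
  obtain ⟨r, hr⟩ := hTW
  refine ⟨r, fun n => ?_⟩
  obtain ⟨qv, h1, h2, h3, h4⟩ := hr n
  exact ⟨qv, h1, h2, h3, fun DQ =>
    exists_surjective_of_selmerGateCard DQ (hBC (Finset.univ.image qv) DQ) h4⟩

/-- **The frozen statement S56 from the cardinality gates.** -/
theorem s56_of_gates_card [Finite (ResidueField 𝒪)]
    (p : ℕ) (ρbar : ResidualGaloisRep (ResidueField 𝒪)) (S Smin : Finset ℕ)
    (hSO : TWGateCard 𝒪 (GaloisRep.strictOrdinaryCondition 𝒪 p) p ρbar S Smin)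
    (hSO' : BCGate 𝒪 (GaloisRep.strictOrdinaryCondition 𝒪 p) p ρbar Smin)
    (hFL : TWGateCard 𝒪 (GaloisRep.flatCondition 𝒪 p) p ρbar S Smin)
    (hFL' : BCGate 𝒪 (GaloisRep.flatCondition 𝒪 p) p ρbar Smin) :
    (∃ r : ℕ, ∀ n : ℕ, ∃ qv : Fin r → ℕ, Function.Injective qv ∧
      (∀ i, (qv i).Prime ∧ qv i ∉ S ∧ p ^ (n + 1) ∣ qv i - 1) ∧
      (∀ i, ∀ P : ValuationSubring (AlgebraicClosure ℚ), P.LiesOverPrime (qv i) →
        ∀ φ : AlgebraicClosure ℚ ≃ₐ[ℚ] AlgebraicClosure ℚ, P.IsFrobeniusAt φ (qv i) →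
          ∃ α β : ResidueField 𝒪, α ≠ β ∧ LinearMap.charpoly (ρbar.ρ φ) = (X - C α) * (X - C β)) ∧
      ∀ DQ : GaloisRep.DeformationRingData 𝒪 ρbar (fun _A _ _ _ ρ =>
          GaloisRep.strictOrdinaryCondition 𝒪 p (Smin ∪ Finset.univ.image qv) ρ ∧
            ∀ q ∈ Smin, q.Prime → q ≠ p → ρ.IsUnipotentOnInertiaAt q),
        ∃ γ : MvPowerSeries (Fin r) 𝒪 →ₐ[𝒪] DQ.R, Function.Surjective γ) ∧
    (∃ r : ℕ, ∀ n : ℕ, ∃ qv : Fin r → ℕ, Function.Injective qv ∧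
      (∀ i, (qv i).Prime ∧ qv i ∉ S ∧ p ^ (n + 1) ∣ qv i - 1) ∧
      (∀ i, ∀ P : ValuationSubring (AlgebraicClosure ℚ), P.LiesOverPrime (qv i) →
        ∀ φ : AlgebraicClosure ℚ ≃ₐ[ℚ] AlgebraicClosure ℚ, P.IsFrobeniusAt φ (qv i) →
          ∃ α β : ResidueField 𝒪, α ≠ β ∧ LinearMap.charpoly (ρbar.ρ φ) = (X - C α) * (X - C β)) ∧
      ∀ DQ : GaloisRep.DeformationRingData 𝒪 ρbar (fun _A _ _ _ ρ =>
          GaloisRep.flatCondition 𝒪 p (Smin ∪ Finset.univ.image qv) ρ ∧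
            ∀ q ∈ Smin, q.Prime → q ≠ p → ρ.IsUnipotentOnInertiaAt q),
        ∃ γ : MvPowerSeries (Fin r) 𝒪 →ₐ[𝒪] DQ.R, Function.Surjective γ) :=
  ⟨conjunct_of_gates_card hSO hSO', conjunct_of_gates_card hFL hFL'⟩

end Top

end Fermat.Agent.GP.Top
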