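/-
GATE-P / P-INT (helper39): **`Core` — the contract of GRAPH v1 (helper98, board 4009 §0) — and the
frozen statement S56 from the two cores.**

* `Core 𝒪 base p ρbar S Smin` : `∃ r, ∀ n, ∃ qv : Fin r → ℕ`, injective, with the FROZEN clauses on
  the auxiliary primes VERBATIM, such that for every deformation-ring datum `DQ` of type
  `cond56 𝒪 base p Smin (image qv)` the tangent vectors `DQ.R →ₐ[𝒪] k[ε]` inject into a finite set
  with at most `|k|^r` elements.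
* `Core.conjunct` : one conjunct of the frozen S56 from its core (helper6's
  `GP.Alg.exists_surjective_of_deformationRingData`).
* **`s56_of_core`** : the frozen S56 from `Core` at `GaloisRep.strictOrdinaryCondition 𝒪 p` and at
  `GaloisRep.flatCondition 𝒪 p`.
* `exists_injective_of_selmerGateCard`, **`core_of_gates_card`**, `core_of_gates` : the gates of
  `GP/Top/S56OfGates(Card)` (class map on the `k[ε]`-lifts + base-change stability) imply `Core`;
  so a core may be proved EITHER directly (tangent map into a Selmer group) OR through the gates.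
-/
import Fermat.Agent.GP.Top.S56OfGatesCard

set_option autoImplicit false
set_option linter.unusedSectionVars false
set_option linter.style.haveILetI false

noncomputable section

namespace Fermat.Agent.GP.Top

open IsLocalRing Polynomial Function
open Fermat.Agent.GP.Tan.UnivInj Fermat.Agent.S53_helper35

section Core

variable (𝒪 : Type) [CommRing 𝒪] [IsDomain 𝒪] [IsDiscreteValuationRing 𝒪]
  [IsAdicComplete (maximalIdeal 𝒪) 𝒪]

/-- **the contract of GATE-P** (GRAPH v1 §0): Taylor–Wiles sets `qv` (frozen clauses verbatim) for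
which the tangent space of every deformation ring of type `cond56 … (image qv)` has at most
`|k|^r` elements. -/
def Core
    (base : Finset ℕ → ∀ ⦃A : Type⦄ [CommRing A] [IsLocalRing A] [Algebra 𝒪 A],
      GaloisRepAdic A → Prop)
    (p : ℕ) (ρbar : ResidualGaloisRep (ResidueField 𝒪)) (S Smin : Finset ℕ) : Prop :=
  ∃ r : ℕ, ∀ n : ℕ, ∃ qv : Fin r → ℕ, Function.Injective qv ∧
    (∀ i, (qv i).Prime ∧ qv i ∉ S ∧ p ^ (n + 1) ∣ qv i - 1) ∧
    (∀ i, ∀ P : ValuationSubring (AlgebraicClosure ℚ), P.LiesOverPrime (qv i) →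
      ∀ φ : AlgebraicClosure ℚ ≃ₐ[ℚ] AlgebraicClosure ℚ, P.IsFrobeniusAt φ (qv i) →
        ∃ α β : ResidueField 𝒪, α ≠ β ∧
          LinearMap.charpoly (ρbar.ρ φ) = (X - C α) * (X - C β)) ∧
    ∀ DQ : GaloisRep.DeformationRingData 𝒪 ρbar
        (cond56 𝒪 base p Smin (Finset.univ.image qv)),
      ∃ (T : Type) (_ : Finite T) (ι : (DQ.R →ₐ[𝒪] DualNumber (ResidueField 𝒪)) → T),
        Function.Injective ι ∧ Nat.card T ≤ Nat.card (ResidueField 𝒪) ^ r

variable {𝒪}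

/-- one conjunct of the frozen S56 from its core. -/
theorem Core.conjunct [Finite (ResidueField 𝒪)]
    {base : Finset ℕ → ∀ ⦃A : Type⦄ [CommRing A] [IsLocalRing A] [Algebra 𝒪 A],
      GaloisRepAdic A → Prop}
    {p : ℕ} {ρbar : ResidualGaloisRep (ResidueField 𝒪)} {S Smin : Finset ℕ}
    (h : Core 𝒪 base p ρbar S Smin) :
    ∃ r : ℕ, ∀ n : ℕ, ∃ qv : Fin r → ℕ, Function.Injective qv ∧
      (∀ i, (qv i).Prime ∧ qv i ∉ S ∧ p ^ (n + 1) ∣ qv i - 1) ∧
      (∀ i, ∀ P : ValuationSubring (AlgebraicClosure ℚ), P.LiesOverPrime (qv i) →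
        ∀ φ : AlgebraicClosure ℚ ≃ₐ[ℚ] AlgebraicClosure ℚ, P.IsFrobeniusAt φ (qv i) →
          ∃ α β : ResidueField 𝒪, α ≠ β ∧
            LinearMap.charpoly (ρbar.ρ φ) = (X - C α) * (X - C β)) ∧
      ∀ DQ : GaloisRep.DeformationRingData 𝒪 ρbar
          (cond56 𝒪 base p Smin (Finset.univ.image qv)),
        ∃ γ : MvPowerSeries (Fin r) 𝒪 →ₐ[𝒪] DQ.R, Function.Surjective γ := by
  obtain ⟨r, hr⟩ := h
  refine ⟨r, fun n => ?_⟩
  obtain ⟨qv, h1, h2, h3, h4⟩ := hr n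
  refine ⟨qv, h1, h2, h3, fun DQ => ?_⟩
  obtain ⟨T, iT, ι, hι, hT⟩ := h4 DQ
  exact Fermat.Agent.GP.Alg.exists_surjective_of_deformationRingData DQ ι hι hT

/-- **The frozen statement S56 from the two cores.** -/
theorem s56_of_core [Finite (ResidueField 𝒪)]
    (p : ℕ) (ρbar : ResidualGaloisRep (ResidueField 𝒪)) (S Smin : Finset ℕ)
    (hSO : Core 𝒪 (GaloisRep.strictOrdinaryCondition 𝒪 p) p ρbar S Smin)
    (hFL : Core 𝒪 (GaloisRep.flatCondition 𝒪 p) p ρbar S Smin) :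
    (∃ r : ℕ, ∀ n : ℕ, ∃ qv : Fin r → ℕ, Function.Injective qv ∧
      (∀ i, (qv i).Prime ∧ qv i ∉ S ∧ p ^ (n + 1) ∣ qv i - 1) ∧
      (∀ i, ∀ P : ValuationSubring (AlgebraicClosure ℚ), P.LiesOverPrime (qv i) →
        ∀ φ : AlgebraicClosure ℚ ≃ₐ[ℚ] AlgebraicClosure ℚ, P.IsFrobeniusAt φ (qv i) →
          ∃ α β : ResidueField 𝒪, α ≠ β ∧ LinearMap.charpoly (ρbar.ρ φ) = (X - C α) * (X - C β)) ∧
      ∀ DQ : GaloisRep.DeformationRingData 𝒪 ρbar (fun _A _ _ _ ρ =>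
          GaloisRep.strictOrdinaryCondition 𝒪 p (Smin ∪ Finset.univ.image qv) ρ ∧
            ∀ q ∈ Smin, q.Prime → q ≠ p → ρ.IsUnipotentOnInertiaAt q),
        ∃ γ : MvPowerSeries (Fin r) 𝒪 →ₐ[𝒪] DQ.R, Function.Surjective γ) ∧
    (∃ r : ℕ, ∀ n : ℕ, ∃ qv : Fin r → ℕ, Function.Injective qv ∧
      (∀ i, (qv i).Prime ∧ qv i ∉ S ∧ p ^ (n + 1) ∣ qv i - 1) ∧
      (∀ i, ∀ P : ValuationSubring (AlgebraicClosure ℚ), P.LiesOverPrime (qv i) →
        ∀ φ : AlgebraicClosure ℚ ≃ₐ[ℚ] AlgebraicClosure ℚ, P.IsFrobeniusAt φ (qv i) →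
          ∃ α β : ResidueField 𝒪, α ≠ β ∧ LinearMap.charpoly (ρbar.ρ φ) = (X - C α) * (X - C β)) ∧
      ∀ DQ : GaloisRep.DeformationRingData 𝒪 ρbar (fun _A _ _ _ ρ =>
          GaloisRep.flatCondition 𝒪 p (Smin ∪ Finset.univ.image qv) ρ ∧
            ∀ q ∈ Smin, q.Prime → q ≠ p → ρ.IsUnipotentOnInertiaAt q),
        ∃ γ : MvPowerSeries (Fin r) 𝒪 →ₐ[𝒪] DQ.R, Function.Surjective γ) :=
  ⟨hSO.conjunct, hFL.conjunct⟩

end Core

/-! ### the gates imply the core -/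

section OfGates

variable {𝒪 : Type} [CommRing 𝒪] [IsDomain 𝒪] [IsDiscreteValuationRing 𝒪]
  [IsAdicComplete (maximalIdeal 𝒪) 𝒪] [Finite (ResidueField 𝒪)]
  {ρbar : ResidualGaloisRep (ResidueField 𝒪)}
  {𝒟 : ∀ ⦃A : Type⦄ [CommRing A] [IsLocalRing A] [Algebra 𝒪 A], GaloisRepAdic A → Prop}

/-- **`SelmerGateCard` ⟹ the tangent vectors of the deformation ring inject into a set with at
most `|k|^r` elements.** -/
theorem exists_injective_of_selmerGateCard
    (DQ : GaloisRep.DeformationRingData 𝒪 ρbar 𝒟)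
    (h𝒟 : ∀ φ : DQ.R →ₐ[𝒪] DualNumber (ResidueField 𝒪), Surjective φ →
      𝒟 (tangentRep DQ φ))
    {r : ℕ} (hG : SelmerGateCard 𝒪 ρbar 𝒟 r) :
    ∃ (T : Type) (_ : Finite T) (ι : (DQ.R →ₐ[𝒪] DualNumber (ResidueField 𝒪)) → T),
      Function.Injective ι ∧ Nat.card T ≤ Nat.card (ResidueField 𝒪) ^ r := by
  classical
  obtain ⟨W, iW, w₀, hW, c, hc1, hc2⟩ := hG
  have hne : ∀ φ : DQ.R →ₐ[𝒪] DualNumber (ResidueField 𝒪), Surjective φ →
      c (tangentRep DQ φ) ≠ w₀ := by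
    intro φ hφ h0
    obtain ⟨e1⟩ := hc2 (tangentRep DQ φ) (tangentRep_residual DQ φ) (h𝒟 φ hφ) h0
    obtain ⟨e2⟩ := baseChangeAlong_comp_isEquiv DQ.ρ
      (φ : DQ.R →+* DualNumber (ResidueField 𝒪)) (isLocalHom_algHom_dualNumber φ)
      ((theta 𝒪 : DualNumber (ResidueField 𝒪) →ₐ[𝒪] DualNumber (ResidueField 𝒪)) :
        DualNumber (ResidueField 𝒪) →+* DualNumber (ResidueField 𝒪)) (isLocalHom_theta 𝒪)
    have he' : (tangentRep DQ ((theta 𝒪).comp φ)).IsEquiv (tangentRep DQ φ) :=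
      ⟨(e1.trans e2).symm⟩
    have := algHom_dualNumber_eq_of_isEquiv DQ ((theta 𝒪).comp φ) φ (h𝒟 φ hφ) he'
    exact theta_comp_not_surjective φ (this ▸ hφ)
  let ι : (DQ.R →ₐ[𝒪] DualNumber (ResidueField 𝒪)) → W := fun φ =>
    if Surjective φ then c (tangentRep DQ φ) else w₀
  have hι : Injective ι := by
    intro φ φ' h
    by_cases hs : Surjective φ
    · by_cases hs' : Surjective φ'
      · simp only [ι, if_pos hs, if_pos hs'] at h
        exact algHom_dualNumber_eq_of_isEquiv DQ φ φ' (h𝒟 φ' hs')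
          (hc1 _ _ (tangentRep_residual DQ φ) (tangentRep_residual DQ φ') (h𝒟 φ hs) (h𝒟 φ' hs') h)
      · simp only [ι, if_pos hs, if_neg hs'] at h
        exact absurd h (hne φ hs)
    · by_cases hs' : Surjective φ'
      · simp only [ι, if_neg hs, if_pos hs'] at h
        exact absurd h.symm (hne φ' hs')
      · exact algHom_dualNumber_eq_of_not_surjective DQ.residue_surjective φ φ' hs hs'
  exact ⟨W, iW, ι, hι, hW⟩

/-- **the cardinality gates imply the core.** -/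
theorem core_of_gates_card
    {base : Finset ℕ → ∀ ⦃A : Type⦄ [CommRing A] [IsLocalRing A] [Algebra 𝒪 A],
      GaloisRepAdic A → Prop}
    {p : ℕ} {S Smin : Finset ℕ}
    (hTW : TWGateCard 𝒪 base p ρbar S Smin) (hBC : BCGate 𝒪 base p ρbar Smin) :
    Core 𝒪 base p ρbar S Smin := by
  obtain ⟨r, hr⟩ := hTW
  refine ⟨r, fun n => ?_⟩
  obtain ⟨qv, h1, h2, h3, h4⟩ := hr n
  exact ⟨qv, h1, h2, h3, fun DQ =>
    exists_injective_of_selmerGateCard DQ (hBC (Finset.univ.image qv) DQ) h4⟩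

/-- the vector-space gates imply the core. -/
theorem core_of_gates
    {base : Finset ℕ → ∀ ⦃A : Type⦄ [CommRing A] [IsLocalRing A] [Algebra 𝒪 A],
      GaloisRepAdic A → Prop}
    {p : ℕ} {S Smin : Finset ℕ}
    (hTW : TWGate 𝒪 base p ρbar S Smin) (hBC : BCGate 𝒪 base p ρbar Smin) :
    Core 𝒪 base p ρbar S Smin :=
  core_of_gates_card hTW.card hBC

end OfGates

end Fermat.Agent.GP.Top
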